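/-
S29 row, layer M, piece GH (helper42): the Galois action on the Prelude Jacobian `JZero N`
commutes with the Prelude Hecke operators `heckeOperatorBar N ℓ`.

Abstract part: if semilinear automorphisms `g` of `F` and `g'` of `F'` are intertwined by the
field embeddings `φ, ψ : F → F'`, then pull-back along `φ` and push-forward along `ψ` of divisors
are equivariant, hence so is the correspondence `ψ_* φ^*` on `Pic0`.
-/
import Mathlib
import Fermat.Prelude.Def_ModularCurve_HeckeModule
import Fermat.Prelude.Thm_ModularCurve_coeffMap_qExpand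

set_option autoImplicit false
set_option linter.style.haveILetI false
set_option linter.unusedSectionVars false

noncomputable section

open AlgebraicCurve ModularCurve IntermediateField IsLocalRing
open scoped Pointwise

namespace Fermat.Agent.S29.H42

section Abstract

variable {K F F' : Type*} [Field K] [Field F] [Field F']
  [Algebra K F] [Algebra K F'] [Algebra F F'] [IsScalarTower K F F']
  [Algebra.IsIntegral F F']

/-- Intertwining hypothesis in instance form. -/
def Intertwines (g : SemilinearAut K F) (g' : SemilinearAut K F') : Prop :=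
  ∀ x : F, g' • algebraMap F F' x = algebraMap F F' (g • x)

theorem Intertwines.inv {g : SemilinearAut K F} {g' : SemilinearAut K F'}
    (h : Intertwines g g') : Intertwines g⁻¹ g'⁻¹ := fun x => by
  have hx := h (g⁻¹ • x)
  rw [smul_inv_smul] at hx
  rw [← hx, inv_smul_smul]

theorem mem_restrict_smul_iff {g : SemilinearAut K F} {g' : SemilinearAut K F'}
    (h : Intertwines g g') (w : Place K F') (x : F) :
    x ∈ ((g' • w).restrict F).toValuationSubring ↔ x ∈ (g • (w.restrict F)).toValuationSubring := by
  rw [Place.mem_restrict_iff, SemilinearAut.smul_toValuationSubring,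
    SemilinearAut.smul_toValuationSubring,
    ValuationSubring.mem_pointwise_smul_iff_inv_smul_mem,
    ValuationSubring.mem_pointwise_smul_iff_inv_smul_mem, Place.mem_restrict_iff, h.inv x]

theorem restrict_smul {g : SemilinearAut K F} {g' : SemilinearAut K F'}
    (h : Intertwines g g') (w : Place K F') :
    (g' • w).restrict F = g • (w.restrict F) := by
  apply Place.ext
  ext x
  exact mem_restrict_smul_iff h w x

theorem ramificationIndex_smul {g : SemilinearAut K F} {g' : SemilinearAut K F'}
    (h : Intertwines g g') (w : Place K F') :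
    (g' • w).ramificationIndex F = w.ramificationIndex F := by
  unfold Place.ramificationIndex
  congr 1
  ext n
  constructor
  · rintro ⟨hn, f, hf, hord⟩
    refine ⟨hn, g⁻¹ • f, by simpa using hf, ?_⟩
    rw [← hord]
    have h1 := SemilinearAut.ord_smul g' w (algebraMap F F' (g⁻¹ • f))
    rw [h (g⁻¹ • f), smul_inv_smul] at h1
    exact h1.symm
  · rintro ⟨hn, f, hf, hord⟩
    refine ⟨hn, g • f, by simpa using hf, ?_⟩
    rw [← hord, ← h f]
    exact SemilinearAut.ord_smul g' w (algebraMap F F' f)

/-- The ring equivalence `x ↦ g • x` between the valuation rings of `w.restrict F` and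
`(g' • w).restrict F`. -/
def restrictEquiv {g : SemilinearAut K F} {g' : SemilinearAut K F'}
    (h : Intertwines g g') (w : Place K F') :
    (w.restrict F).toValuationSubring ≃+* ((g' • w).restrict F).toValuationSubring where
  toFun x := ⟨g • (x : F), (mem_restrict_smul_iff h w _).mpr
    (ValuationSubring.smul_mem_pointwise_smul g (x : F) _ x.2)⟩
  invFun y := ⟨g⁻¹ • (y : F),
    (ValuationSubring.mem_pointwise_smul_iff_inv_smul_mem (g := g)
      (S := (w.restrict F).toValuationSubring) (x := (y : F))).mp
      ((mem_restrict_smul_iff h w _).mp y.2)⟩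
  left_inv x := by ext; simp
  right_inv y := by ext; simp
  map_mul' x y := Subtype.ext (smul_mul' g (x : F) (y : F))
  map_add' x y := Subtype.ext (smul_add g (x : F) (y : F))

@[simp]
theorem coe_restrictEquiv_apply {g : SemilinearAut K F} {g' : SemilinearAut K F'}
    (h : Intertwines g g') (w : Place K F') (x : (w.restrict F).toValuationSubring) :
    ((restrictEquiv h w x : ((g' • w).restrict F).toValuationSubring) : F) = g • (x : F) :=
  rfl

theorem inertiaDeg_smul {g : SemilinearAut K F} {g' : SemilinearAut K F'}
    (h : Intertwines g g') (w : Place K F') :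
    (g' • w).inertiaDeg F = w.inertiaDeg F := by
  unfold Place.inertiaDeg
  symm
  refine Algebra.finrank_eq_of_equiv_equiv
    (IsLocalRing.ResidueField.mapEquiv (restrictEquiv h w))
    (IsLocalRing.ResidueField.mapEquiv
      (SemilinearAut.smulValuationSubringEquiv g' w.toValuationSubring)) ?_
  apply RingHom.ext
  intro a
  obtain ⟨a, rfl⟩ := IsLocalRing.residue_surjective a
  simp only [RingHom.comp_apply, RingEquiv.toRingHom_eq_coe, RingEquiv.coe_toRingHom,
    IsLocalRing.ResidueField.mapEquiv_apply, IsLocalRing.ResidueField.map_residue,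
    Place.algebraMap_residueField_eq, Place.restrictResidueMap_residue]
  congr 1
  apply Subtype.ext
  show algebraMap F F' (g • (a : F)) = g' • algebraMap F F' (a : F)
  exact (h (a : F)).symm

/-- Push-forward of divisors is equivariant. -/
theorem pushforward_smul {g : SemilinearAut K F} {g' : SemilinearAut K F'}
    (h : Intertwines g g') (D : Divisor K F') :
    Divisor.pushforward F (g' • D) = g • Divisor.pushforward F D := by
  induction D using Finsupp.induction with
  | zero => simp
  | single_add w n D _ _ ih =>
      rw [smul_add, map_add, map_add, smul_add, ih, SemilinearAut.smul_single,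
        Divisor.pushforward_single, Divisor.pushforward_single, SemilinearAut.smul_single,
        restrict_smul h, inertiaDeg_smul h]

/-- Pull-back of divisors is equivariant. -/
theorem pullback_smul [HasPrincipalDivisors K F'] {g : SemilinearAut K F}
    {g' : SemilinearAut K F'} (h : Intertwines g g') (D : Divisor K F) :
    Divisor.pullback F' (g • D) = g' • Divisor.pullback F' D := by
  ext w
  rw [Divisor.pullback_apply, SemilinearAut.divisor_smul_apply,
    SemilinearAut.divisor_smul_apply, Divisor.pullback_apply, restrict_smul h.inv,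
    ramificationIndex_smul h.inv]

end Abstract

section Along

variable {K F F' : Type*} [Field K] [Field F] [Field F'] [Algebra K F] [Algebra K F']

theorem pullbackAlong_smul [HasPrincipalDivisors K F'] (φ : F →ₐ[K] F')
    (hφ : φ.toRingHom.IsIntegral) {g : SemilinearAut K F} {g' : SemilinearAut K F'}
    (h : SemilinearAut.IntertwinesAlong (φ : F →+* F') g g') (D : Divisor K F) :
    Divisor.pullbackAlong φ hφ (g • D) = g' • Divisor.pullbackAlong φ hφ D := by
  letI := algebraAlong φ
  haveI := isScalarTower_along φ
  haveI := isIntegral_along φ hφ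
  exact pullback_smul (fun x => h x) D

theorem pushforwardAlong_smul (φ : F →ₐ[K] F')
    (hφ : φ.toRingHom.IsIntegral) {g : SemilinearAut K F} {g' : SemilinearAut K F'}
    (h : SemilinearAut.IntertwinesAlong (φ : F →+* F') g g') (D : Divisor K F') :
    Divisor.pushforwardAlong φ hφ (g' • D) = g • Divisor.pushforwardAlong φ hφ D := by
  letI := algebraAlong φ
  haveI := isScalarTower_along φ
  haveI := isIntegral_along φ hφ
  exact pushforward_smul (fun x => h x) D

variable [HasPrincipalDivisors K F']
variable (φ ψ : F →ₐ[K] F') (hφ : φ.toRingHom.IsIntegral) (hψ : ψ.toRingHom.IsIntegral)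

theorem divisor_correspondence_smul {g : SemilinearAut K F} {g' : SemilinearAut K F'}
    (h₁ : SemilinearAut.IntertwinesAlong (φ : F →+* F') g g')
    (h₂ : SemilinearAut.IntertwinesAlong (ψ : F →+* F') g g') (D : Divisor K F) :
    Divisor.correspondence φ ψ hφ hψ (g • D) = g • Divisor.correspondence φ ψ hφ hψ D := by
  rw [Divisor.correspondence_apply, Divisor.correspondence_apply, pullbackAlong_smul φ hφ h₁,
    pushforwardAlong_smul ψ hψ h₂]

theorem pic0_correspondence_smul (hFI : FundamentalIdentityAlong K φ hφ)
    (hfin : FiniteAlong K ψ) (hN : NormFormulaAlong K ψ hfin)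
    {g : SemilinearAut K F} {g' : SemilinearAut K F'}
    (h₁ : SemilinearAut.IntertwinesAlong (φ : F →+* F') g g')
    (h₂ : SemilinearAut.IntertwinesAlong (ψ : F →+* F') g g') (x : Pic0 K F) :
    Pic0.correspondence φ ψ hφ hψ hFI hfin hN (g • x)
      = g • Pic0.correspondence φ ψ hφ hψ hFI hfin hN x := by
  obtain ⟨D, rfl⟩ := Pic0.mk_surjective x
  rw [SemilinearAut.pic0_smul_mk, Pic0.correspondence_mk, Pic0.correspondence_mk,
    SemilinearAut.pic0_smul_mk]
  congr 1
  apply Subtype.ext
  rw [Pic0.coe_degZeroCorrespondence, SemilinearAut.coe_degZeroSMulHom,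
    SemilinearAut.coe_degZeroSMulHom, Pic0.coe_degZeroCorrespondence]
  exact divisor_correspondence_smul φ ψ hφ hψ h₁ h₂ (D : Divisor K F)

end Along

section Modular

variable (N : ℕ) [NeZero N]

theorem intertwines_heckeAlphaBar (ℓ : ℕ) [NeZero ℓ]
    (σ : AlgebraicClosure ℚ ≃ₐ[ℚ] AlgebraicClosure ℚ) :
    SemilinearAut.IntertwinesAlong
      ((heckeAlphaBar (AlgebraicClosure ℚ) N ℓ :
        laurentBaseChange (AlgebraicClosure ℚ) (modularFunctionFieldFull N) →ₐ[AlgebraicClosure ℚ]
          laurentBaseChange (AlgebraicClosure ℚ) (modularFunctionFieldFull (N * ℓ))) :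
        laurentBaseChange (AlgebraicClosure ℚ) (modularFunctionFieldFull N) →+*
          laurentBaseChange (AlgebraicClosure ℚ) (modularFunctionFieldFull (N * ℓ)))
      (arithmeticGalois (modularFunctionFieldFull N) σ)
      (arithmeticGalois (modularFunctionFieldFull (N * ℓ)) σ) := by
  intro x
  apply Subtype.ext
  rw [coe_arithmeticGalois_smul]
  show coeffMap _ ((heckeAlphaBar (AlgebraicClosure ℚ) N ℓ x :
      laurentBaseChange (AlgebraicClosure ℚ) (modularFunctionFieldFull (N * ℓ))) :
        LaurentSeries (AlgebraicClosure ℚ)) =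
    ((heckeAlphaBar (AlgebraicClosure ℚ) N ℓ
      (arithmeticGalois (modularFunctionFieldFull N) σ • x) :
      laurentBaseChange (AlgebraicClosure ℚ) (modularFunctionFieldFull (N * ℓ))) :
        LaurentSeries (AlgebraicClosure ℚ))
  rw [coe_heckeAlphaBar, coe_heckeAlphaBar, coe_arithmeticGalois_smul]

theorem intertwines_heckeBetaBar (ℓ : ℕ) [NeZero ℓ]
    (σ : AlgebraicClosure ℚ ≃ₐ[ℚ] AlgebraicClosure ℚ) :
    SemilinearAut.IntertwinesAlong
      ((heckeBetaBar (AlgebraicClosure ℚ) N ℓ :
        laurentBaseChange (AlgebraicClosure ℚ) (modularFunctionFieldFull N) →ₐ[AlgebraicClosure ℚ]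
          laurentBaseChange (AlgebraicClosure ℚ) (modularFunctionFieldFull (N * ℓ))) :
        laurentBaseChange (AlgebraicClosure ℚ) (modularFunctionFieldFull N) →+*
          laurentBaseChange (AlgebraicClosure ℚ) (modularFunctionFieldFull (N * ℓ)))
      (arithmeticGalois (modularFunctionFieldFull N) σ)
      (arithmeticGalois (modularFunctionFieldFull (N * ℓ)) σ) := by
  intro x
  apply Subtype.ext
  rw [coe_arithmeticGalois_smul]
  show coeffMap _ ((heckeBetaBar (AlgebraicClosure ℚ) N ℓ x :
      laurentBaseChange (AlgebraicClosure ℚ) (modularFunctionFieldFull (N * ℓ))) :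
        LaurentSeries (AlgebraicClosure ℚ)) =
    ((heckeBetaBar (AlgebraicClosure ℚ) N ℓ
      (arithmeticGalois (modularFunctionFieldFull N) σ • x) :
      laurentBaseChange (AlgebraicClosure ℚ) (modularFunctionFieldFull (N * ℓ))) :
        LaurentSeries (AlgebraicClosure ℚ))
  rw [coe_heckeBetaBar, coe_heckeBetaBar, coe_arithmeticGalois_smul, coeffMap_qExpand]

/-- **GH (raw form)**: the Galois action on `JZero N` commutes with every Prelude Hecke operator
`heckeOperatorBar N ℓ`. -/
theorem galois_smul_heckeOperatorBar (ℓ : Nat.Primes)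
    (σ : AlgebraicClosure ℚ ≃ₐ[ℚ] AlgebraicClosure ℚ) (x : JZero N) :
    heckeOperatorBar N ℓ (σ • x) = σ • heckeOperatorBar N ℓ x := by
  haveI : NeZero (ℓ : ℕ) := ⟨ℓ.2.ne_zero⟩
  rw [heckeOperatorBar_apply, heckeOperatorBar_apply]
  by_cases h : HeckeInputsAlong (AlgebraicClosure ℚ) N (ℓ : ℕ)
  · obtain ⟨hα, hβ, hP, hfin, hFI, hN⟩ := h
    haveI := hP
    rw [heckeOperatorAlong_eq hα hβ hFI hfin hN, galois_smul_pic0_def, galois_smul_pic0_def]
    exact pic0_correspondence_smul _ _ hβ hα hFI hfin hN
      (intertwines_heckeBetaBar N ℓ σ) (intertwines_heckeAlphaBar N ℓ σ) x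
  · rw [heckeOperatorAlong_of_not h]
    simp

/-- Every element of the Hecke algebra acts on `JZero N` by an endomorphism commuting with the
Galois action. -/
theorem galois_smul_heckeEvalBar (h : HeckeOperatorsCommuteBar N) (t : HeckeAlg)
    (σ : AlgebraicClosure ℚ ≃ₐ[ℚ] AlgebraicClosure ℚ) (x : JZero N) :
    heckeEvalBar h t (σ • x) = σ • heckeEvalBar h t x := by
  induction t using MvPolynomial.induction_on generalizing x with
  | C a =>
      rw [heckeEvalBar_C, Module.End.intCast_apply, Module.End.intCast_apply]
      exact (map_zsmul (DistribSMul.toAddMonoidHom (JZero N) σ) a x).symm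
  | add p q hp hq =>
      rw [map_add, LinearMap.add_apply, LinearMap.add_apply, hp, hq, smul_add]
  | mul_X p ℓ hp =>
      rw [map_mul, Module.End.mul_apply, Module.End.mul_apply]
      have hX : heckeEvalBar h (MvPolynomial.X ℓ) = heckeOperatorBar N ℓ :=
        heckeEvalBar_heckeGen h ℓ
      rw [hX, galois_smul_heckeOperatorBar, hp]

/-- **GH**: the Galois action on `JZero N` commutes with the Prelude Hecke-module structure. -/
theorem smulCommClass_galois_heckeAlg :
    letI := heckeModuleBar N
    SMulCommClass (AlgebraicClosure ℚ ≃ₐ[ℚ] AlgebraicClosure ℚ) HeckeAlg (JZero N) := by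
  letI := heckeModuleBar N
  refine ⟨fun σ t x => ?_⟩
  by_cases h : HeckeOperatorsCommuteBar N
  · rw [heckeModuleBar_smul_def h, heckeModuleBar_smul_def h]
    exact (galois_smul_heckeEvalBar N h t σ x).symm
  · rw [heckeModuleBar_smul_of_not h, heckeModuleBar_smul_of_not h]
    exact map_zsmul (DistribSMul.toAddMonoidHom (JZero N) σ) _ x

end Modular

end Fermat.Agent.S29.H42
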