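/-
S29 row, layer M, abstract assembly (helper42).

From an abelian group `A` with a `G_ℚ`-action and commuting operators `T ℓ` such that
* every element has an open stabiliser,
* inertia at `ℓ ∤ S` acts trivially,
* every Frobenius at `ℓ ∤ S` satisfies `σ² - T_ℓ σ + ℓ = 0`,
* the system `a` occurs in `F ⊗ A` (a nonzero simultaneous eigenvector),
we build the module required by `HasFrobModule F S a`: the simultaneous eigenspace in `F ⊗[ℤ] A`.
-/
import Mathlib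
import Fermat.Agent.S29.Defs

set_option autoImplicit false
set_option linter.style.haveILetI false
set_option linter.unusedSectionVars false

noncomputable section

open TensorProduct

namespace Fermat.Agent.S29.H42

variable {F : Type} [Field F] {A : Type} [AddCommGroup A] [DistribMulAction GQ A]

/-- The action of `σ` as a `ℤ`-linear map. -/
def actLin (σ : GQ) : Module.End ℤ A :=
  (DistribSMul.toAddMonoidHom A σ).toIntLinearMap

@[simp] theorem actLin_apply (σ : GQ) (x : A) : actLin σ x = σ • x := rfl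

theorem actLin_one : actLin (A := A) 1 = 1 := by
  ext x; simp

theorem actLin_mul (σ τ : GQ) : actLin (A := A) (σ * τ) = actLin σ * actLin τ := by
  ext x; simp [mul_smul]

variable (F A) in
/-- The action of `G_ℚ` on `F ⊗[ℤ] A`. -/
def tensorRep : GQ →* Module.End F (F ⊗[ℤ] A) where
  toFun σ := (actLin σ).baseChange F
  map_one' := by rw [actLin_one]; exact LinearMap.baseChange_one ℤ A
  map_mul' σ τ := by rw [actLin_mul]; exact LinearMap.baseChange_mul _ _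

@[simp] theorem tensorRep_tmul (σ : GQ) (f : F) (x : A) :
    tensorRep F A σ (f ⊗ₜ[ℤ] x) = f ⊗ₜ[ℤ] (σ • x) := by
  simp [tensorRep]

variable (F) in
/-- The simultaneous eigenspace of the operators `T ℓ` (`ℓ` prime, `ℓ ∤ S`) in `F ⊗[ℤ] A`. -/
def eigenSub (S : ℕ) (a : ℕ → F) (T : ℕ → Module.End ℤ A) : Submodule F (F ⊗[ℤ] A) where
  carrier := {v | ∀ ℓ : ℕ, ℓ.Prime → ¬ ℓ ∣ S → (T ℓ).baseChange F v = a ℓ • v}
  zero_mem' := fun ℓ _ _ => by simp
  add_mem' := fun {v w} hv hw ℓ hℓ hS => by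
    rw [map_add, hv ℓ hℓ hS, hw ℓ hℓ hS, smul_add]
  smul_mem' := fun c v hv ℓ hℓ hS => by
    rw [map_smul, hv ℓ hℓ hS, smul_comm]

theorem mem_eigenSub {S : ℕ} {a : ℕ → F} {T : ℕ → Module.End ℤ A} {v : F ⊗[ℤ] A} :
    v ∈ eigenSub F S a T ↔ ∀ ℓ : ℕ, ℓ.Prime → ¬ ℓ ∣ S → (T ℓ).baseChange F v = a ℓ • v :=
  Iff.rfl

theorem baseChange_comm {T : Module.End ℤ A} (σ : GQ)
    (hT : ∀ x : A, T (σ • x) = σ • T x) (v : F ⊗[ℤ] A) :
    T.baseChange F (tensorRep F A σ v) = tensorRep F A σ (T.baseChange F v) := by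
  induction v using TensorProduct.induction_on with
  | zero => simp
  | tmul f x => simp [hT]
  | add v w hv hw => rw [map_add, map_add, hv, hw, map_add, map_add]

theorem tensorRep_mem_eigenSub {S : ℕ} {a : ℕ → F} {T : ℕ → Module.End ℤ A}
    (hT : ∀ (ℓ : ℕ) (σ : GQ) (x : A), T ℓ (σ • x) = σ • T ℓ x) (σ : GQ)
    {v : F ⊗[ℤ] A} (hv : v ∈ eigenSub F S a T) : tensorRep F A σ v ∈ eigenSub F S a T := by
  intro ℓ hℓ hS
  rw [baseChange_comm σ (hT ℓ σ), hv ℓ hℓ hS, map_smul]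

/-- The representation on the eigenspace. -/
def eigenRep (S : ℕ) (a : ℕ → F) (T : ℕ → Module.End ℤ A)
    (hT : ∀ (ℓ : ℕ) (σ : GQ) (x : A), T ℓ (σ • x) = σ • T ℓ x) :
    GQ →* Module.End F (eigenSub F S a T) where
  toFun σ := (tensorRep F A σ).restrict fun _ hv => tensorRep_mem_eigenSub hT σ hv
  map_one' := by
    ext v
    simp
  map_mul' σ τ := by
    ext v
    simp

@[simp] theorem coe_eigenRep_apply (S : ℕ) (a : ℕ → F) (T : ℕ → Module.End ℤ A)
    (hT : ∀ (ℓ : ℕ) (σ : GQ) (x : A), T ℓ (σ • x) = σ • T ℓ x) (σ : GQ)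
    (v : eigenSub F S a T) :
    ((eigenRep S a T hT σ v : eigenSub F S a T) : F ⊗[ℤ] A) = tensorRep F A σ v := rfl

theorem tensorRep_smooth
    (hsmooth : ∀ x : A, ∃ L : IntermediateField ℚ (AlgebraicClosure ℚ), FiniteDimensional ℚ L ∧
      ∀ σ : GQ, (∀ y ∈ L, σ y = y) → σ • x = x) (v : F ⊗[ℤ] A) :
    ∃ L : IntermediateField ℚ (AlgebraicClosure ℚ), FiniteDimensional ℚ L ∧
      ∀ σ : GQ, (∀ y ∈ L, σ y = y) → tensorRep F A σ v = v := by
  induction v using TensorProduct.induction_on with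
  | zero => exact ⟨⊥, inferInstance, fun σ _ => map_zero _⟩
  | tmul f x =>
      obtain ⟨L, hL, hx⟩ := hsmooth x
      exact ⟨L, hL, fun σ hσ => by rw [tensorRep_tmul, hx σ hσ]⟩
  | add v w hv hw =>
      obtain ⟨L1, h1, hL1⟩ := hv
      obtain ⟨L2, h2, hL2⟩ := hw
      haveI := h1
      haveI := h2
      refine ⟨L1 ⊔ L2, inferInstance, fun σ hσ => ?_⟩
      rw [map_add, hL1 σ fun y hy => hσ y (le_sup_left (b := L2) hy),
        hL2 σ fun y hy => hσ y (le_sup_right (a := L1) hy)]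

theorem tensorRep_eq_one_of_trivial (σ : GQ) (h : ∀ x : A, σ • x = x) :
    tensorRep F A σ = 1 := by
  refine LinearMap.ext fun v => ?_
  induction v using TensorProduct.induction_on with
  | zero => simp
  | tmul f x => simp [h x]
  | add v w hv hw => simp only [map_add, hv, hw]

theorem tensorRep_quadratic {T : Module.End ℤ A} (σ : GQ) (ℓ : ℕ)
    (h : ∀ x : A, σ • σ • x - T (σ • x) + (ℓ : ℤ) • x = 0) (v : F ⊗[ℤ] A) :
    tensorRep F A σ (tensorRep F A σ v) - T.baseChange F (tensorRep F A σ v)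
      + (ℓ : F) • v = 0 := by
  induction v using TensorProduct.induction_on with
  | zero => simp
  | tmul f x =>
      simp only [tensorRep_tmul, LinearMap.baseChange_tmul]
      have h1 : (ℓ : F) • (f ⊗ₜ[ℤ] x) = f ⊗ₜ[ℤ] ((ℓ : ℤ) • x) := by
        calc (ℓ : F) • (f ⊗ₜ[ℤ] x) = ((ℓ : F) • f) ⊗ₜ[ℤ] x := TensorProduct.smul_tmul' _ _ _
          _ = ((ℓ : ℤ) • f) ⊗ₜ[ℤ] x := by
              congr 1
              simp [zsmul_eq_mul]
          _ = f ⊗ₜ[ℤ] ((ℓ : ℤ) • x) := TensorProduct.smul_tmul _ _ _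
      rw [h1, ← TensorProduct.tmul_sub, ← TensorProduct.tmul_add, h x, TensorProduct.tmul_zero]
  | add v w hv hw =>
      have : tensorRep F A σ (tensorRep F A σ (v + w)) - T.baseChange F (tensorRep F A σ (v + w))
          + (ℓ : F) • (v + w)
          = (tensorRep F A σ (tensorRep F A σ v) - T.baseChange F (tensorRep F A σ v)
              + (ℓ : F) • v)
            + (tensorRep F A σ (tensorRep F A σ w) - T.baseChange F (tensorRep F A σ w)
              + (ℓ : F) • w) := by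
        simp only [map_add, smul_add]
        abel
      rw [this, hv, hw, add_zero]

/-- **Abstract assembly of layer M.** -/
theorem hasFrobModule_of_eigenvector (S : ℕ) (a : ℕ → F) (T : ℕ → Module.End ℤ A)
    (hT : ∀ (ℓ : ℕ) (σ : GQ) (x : A), T ℓ (σ • x) = σ • T ℓ x)
    (hsmooth : ∀ x : A, ∃ L : IntermediateField ℚ (AlgebraicClosure ℚ), FiniteDimensional ℚ L ∧
      ∀ σ : GQ, (∀ y ∈ L, σ y = y) → σ • x = x)
    (hunr : ∀ ℓ : ℕ, ℓ.Prime → ¬ ℓ ∣ S → ∀ V : VQ, V.LiesOverPrime ℓ →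
      ∀ σ ∈ V.inertiaSubgroupIn ℚ, ∀ x : A, σ • x = x)
    (hfrob : ∀ ℓ : ℕ, ℓ.Prime → ¬ ℓ ∣ S → ∀ V : VQ, V.LiesOverPrime ℓ →
      ∀ σ : GQ, V.IsFrobeniusAt σ ℓ → ∀ x : A, σ • σ • x - T ℓ (σ • x) + (ℓ : ℤ) • x = 0)
    (hocc : ∃ v : F ⊗[ℤ] A, v ≠ 0 ∧
      ∀ ℓ : ℕ, ℓ.Prime → ¬ ℓ ∣ S → (T ℓ).baseChange F v = a ℓ • v) :
    HasFrobModule F S a := by
  obtain ⟨v, hv0, hv⟩ := hocc
  refine ⟨eigenSub F S a T, inferInstance, inferInstance, eigenRep S a T hT, ?_, ?_, ?_, ?_⟩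
  · exact ⟨⟨⟨v, hv⟩, 0, fun h => hv0 (congrArg Subtype.val h)⟩⟩
  · intro x
    obtain ⟨L, hL, hfix⟩ := tensorRep_smooth (F := F) hsmooth (x : F ⊗[ℤ] A)
    exact ⟨L, hL, fun σ hσ => Subtype.ext (hfix σ hσ)⟩
  · intro ℓ hℓ hS V hV σ hσ
    ext x
    have := tensorRep_eq_one_of_trivial (F := F) σ (hunr ℓ hℓ hS V hV σ hσ)
    simp [this]
  · intro ℓ hℓ hS V hV σ hσ
    ext x
    have h1 := tensorRep_quadratic (F := F) σ ℓ (hfrob ℓ hℓ hS V hV σ hσ) (x : F ⊗[ℤ] A)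
    have h2 := tensorRep_mem_eigenSub hT σ x.2 ℓ hℓ hS
    rw [h2] at h1
    simpa using h1

end Fermat.Agent.S29.H42
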