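/-
S29 row, layer M, piece SMOOTH (helper42).

Every torsion point of the Prelude Jacobian `JZero N = Pic0 (ℚ̄) (ℚ̄ · F_N)` is fixed by an open
subgroup `Gal(ℚ̄/L)`, `L/ℚ` finite.  Proof: `n • [D] = 0` gives `f` with `div f = n • D`; `f` has
coefficients in a finite extension `L`; `σ ∈ Gal(ℚ̄/L)` fixes `f`, hence `n • (σ • D) = n • D`,
hence `σ • D = D` (divisors are torsion free).
-/
import Mathlib
import Fermat.Prelude.Def_ModularCurve_ArithmeticGalois

set_option autoImplicit false
set_option linter.style.haveILetI false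

noncomputable section

open AlgebraicCurve ModularCurve IntermediateField

namespace Fermat.Agent.S29.H42

/-- Finite-dimensional intermediate fields of `ℚ̄/ℚ` generated by one element. -/
theorem finiteDimensional_adjoin_singleton (c : AlgebraicClosure ℚ) :
    FiniteDimensional ℚ (IntermediateField.adjoin ℚ {c}) := by
  haveI : Algebra.IsAlgebraic ℚ (AlgebraicClosure ℚ) := AlgebraicClosure.isAlgebraic ℚ
  exact IntermediateField.adjoin.finiteDimensional (Algebra.IsIntegral.isIntegral c)

/-- **Coefficients of an element of the base-changed function field lie in a finite extension**: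
every element of `ℚ̄ · F₀ ⊆ ℚ̄((q))` is fixed (coefficientwise) by an open subgroup of `G_ℚ`. -/
theorem exists_finite_level_fix (F₀ : IntermediateField ℚ (LaurentSeries ℚ))
    {f : LaurentSeries (AlgebraicClosure ℚ)}
    (hf : f ∈ laurentBaseChange (AlgebraicClosure ℚ) F₀) :
    ∃ L : IntermediateField ℚ (AlgebraicClosure ℚ), FiniteDimensional ℚ L ∧
      ∀ σ : AlgebraicClosure ℚ ≃ₐ[ℚ] AlgebraicClosure ℚ, (∀ y ∈ L, σ y = y) →
        coeffMap (σ : AlgebraicClosure ℚ →+* AlgebraicClosure ℚ) f = f := by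
  rw [mem_laurentBaseChange_iff] at hf
  induction hf using Subfield.closure_induction with
  | mem y hy =>
      rcases hy with ⟨a, rfl⟩ | ⟨z, _, rfl⟩
      · refine ⟨IntermediateField.adjoin ℚ {a}, finiteDimensional_adjoin_singleton a, ?_⟩
        intro σ hσ
        rw [coeffMap_algebraMap]
        congr 1
        exact hσ a (IntermediateField.mem_adjoin_simple_self ℚ a)
      · exact ⟨⊥, inferInstance, fun σ _ => coeffMap_coeffEmb σ z⟩
  | one => exact ⟨⊥, inferInstance, fun σ _ => map_one _⟩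
  | add x y _ _ hx hy =>
      obtain ⟨L1, h1, hL1⟩ := hx
      obtain ⟨L2, h2, hL2⟩ := hy
      haveI := h1
      haveI := h2
      refine ⟨L1 ⊔ L2, inferInstance, fun σ hσ => ?_⟩
      rw [map_add, hL1 σ fun y hy => hσ y (le_sup_left (b := L2) hy),
        hL2 σ fun y hy => hσ y (le_sup_right (a := L1) hy)]
  | neg x _ hx =>
      obtain ⟨L1, h1, hL1⟩ := hx
      exact ⟨L1, h1, fun σ hσ => by rw [map_neg, hL1 σ hσ]⟩
  | inv x _ hx =>
      obtain ⟨L1, h1, hL1⟩ := hx
      exact ⟨L1, h1, fun σ hσ => by rw [map_inv₀, hL1 σ hσ]⟩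
  | mul x y _ _ hx hy =>
      obtain ⟨L1, h1, hL1⟩ := hx
      obtain ⟨L2, h2, hL2⟩ := hy
      haveI := h1
      haveI := h2
      refine ⟨L1 ⊔ L2, inferInstance, fun σ hσ => ?_⟩
      rw [map_mul, hL1 σ fun y hy => hσ y (le_sup_left (b := L2) hy),
        hL2 σ fun y hy => hσ y (le_sup_right (a := L1) hy)]

/-- A divisor whose `n`-th multiple is the divisor of a function fixed by the semilinear
automorphism `g` is itself fixed by `g`. -/
theorem divisor_smul_eq_of_fix {K F : Type*} [Field K] [Field F] [Algebra K F]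
    (g : SemilinearAut K F) {n : ℤ} (hn : n ≠ 0) (D : Divisor K F) (f : F)
    (hD : ∀ v : Place K F, (n • D) v = v.ord f) (hgf : g • f = f) : g • D = D := by
  have h1 : g • (n • D) = n • D := by
    ext w
    rw [SemilinearAut.divisor_smul_apply, hD, hD]
    have h := SemilinearAut.ord_smul g (g⁻¹ • w) f
    rw [smul_inv_smul, hgf] at h
    exact h.symm
  have h2 : n • (g • D) = n • D := by
    rw [← h1]
    exact (map_zsmul (DistribSMul.toAddMonoidHom (Divisor K F) g) n D).symm
  ext w
  have h3 := DFunLike.congr_fun h2 w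
  simp only [Finsupp.smul_apply, smul_eq_mul] at h3
  exact mul_left_cancel₀ hn h3

/-- **SMOOTH (torsion points)**: every torsion point of `Pic0 (ℚ̄) (ℚ̄ · F₀)` is fixed by an open
subgroup of `G_ℚ`. -/
theorem exists_finite_level_fix_torsion (F₀ : IntermediateField ℚ (LaurentSeries ℚ))
    {n : ℕ} (hn : n ≠ 0)
    (x : Pic0 (AlgebraicClosure ℚ) (laurentBaseChange (AlgebraicClosure ℚ) F₀))
    (hx : (n : ℤ) • x = 0) :
    ∃ L : IntermediateField ℚ (AlgebraicClosure ℚ), FiniteDimensional ℚ L ∧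
      ∀ σ : AlgebraicClosure ℚ ≃ₐ[ℚ] AlgebraicClosure ℚ, (∀ y ∈ L, σ y = y) → σ • x = x := by
  obtain ⟨D, rfl⟩ := Pic0.mk_surjective x
  have hx' : ((n : ℤ) • D : Divisor.degZero (K := AlgebraicClosure ℚ)
      (F := laurentBaseChange (AlgebraicClosure ℚ) F₀)) ∈
      (Divisor.principal (K := AlgebraicClosure ℚ)
        (F := laurentBaseChange (AlgebraicClosure ℚ) F₀)).addSubgroupOf
        (Divisor.degZero (K := AlgebraicClosure ℚ)
          (F := laurentBaseChange (AlgebraicClosure ℚ) F₀)) := by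
    have : Pic0.mk ((n : ℤ) • D) = 0 := hx
    exact (QuotientAddGroup.eq_zero_iff _).mp this
  rw [AddSubgroup.mem_addSubgroupOf] at hx'
  obtain ⟨f, _, hD⟩ := hx'
  obtain ⟨L, hL, hfix⟩ := exists_finite_level_fix F₀ f.2
  refine ⟨L, hL, fun σ hσ => ?_⟩
  rw [galois_smul_pic0_def, SemilinearAut.pic0_smul_mk]
  congr 1
  apply Subtype.ext
  rw [SemilinearAut.coe_degZeroSMulHom]
  refine divisor_smul_eq_of_fix (arithmeticGalois F₀ σ) (Int.natCast_ne_zero.mpr hn)
    (D : Divisor _ _) f ?_ ?_
  · intro v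
    have := hD v
    simpa using this
  · apply Subtype.ext
    rw [coe_arithmeticGalois_smul]
    exact hfix σ hσ

/-- SMOOTH for the Prelude Jacobian `JZero N`. -/
theorem jZero_exists_finite_level_fix_torsion (N : ℕ) {n : ℕ} (hn : n ≠ 0) (x : JZero N)
    (hx : (n : ℤ) • x = 0) :
    ∃ L : IntermediateField ℚ (AlgebraicClosure ℚ), FiniteDimensional ℚ L ∧
      ∀ σ : AlgebraicClosure ℚ ≃ₐ[ℚ] AlgebraicClosure ℚ, (∀ y ∈ L, σ y = y) → σ • x = x :=
  exists_finite_level_fix_torsion (modularFunctionFieldFull N) hn x hx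

end Fermat.Agent.S29.H42
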