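/-
S29 row, layer M, assembly for the Prelude Jacobian (helper42).

`hasFrobModule_of_raw`: from the RAW Eichler–Shimura input on the `p`-torsion of `JZero N`
(inertia trivial, `σ² - T_ℓ σ + ℓ = 0` for Frobenius `σ`, `T_ℓ = heckeOperatorBar N ℓ`) and the
occurrence of the system `a` in `F ⊗ JZero N [p]`, we get `HasFrobModule F (N * p) a`.
Uses the pieces GH (`GH.lean`), SMOOTH (`Smooth.lean`) and the abstract assembly (`MAsm.lean`).
-/
import Mathlib
import Fermat.Agent.S29.Defs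
import Fermat.Agent.S29.H42.GH
import Fermat.Agent.S29.H42.Smooth
import Fermat.Agent.S29.H42.MAsm

set_option autoImplicit false
set_option linter.style.haveILetI false
set_option linter.unusedSectionVars false

noncomputable section

open TensorProduct AlgebraicCurve ModularCurve

namespace Fermat.Agent.S29.H42

variable (N p : ℕ) [NeZero N]

/-- The `p`-torsion of the Prelude Jacobian, as a type. -/
abbrev JTors : Type :=
  ↥(Pic0.torsion (AlgebraicClosure ℚ) (modularFunctionFieldBar N) p)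

theorem galois_smul_mem_torsion (σ : GQ) {x : JZero N}
    (hx : x ∈ Pic0.torsion (AlgebraicClosure ℚ) (modularFunctionFieldBar N) p) :
    σ • x ∈ Pic0.torsion (AlgebraicClosure ℚ) (modularFunctionFieldBar N) p := by
  rw [Pic0.mem_torsion] at hx ⊢
  have := map_zsmul (DistribSMul.toAddMonoidHom (JZero N) σ) (p : ℤ) x
  rw [hx, map_zero] at this
  exact this.symm

/-- The Galois action on the `p`-torsion. -/
@[implicit_reducible]
def galoisActionTors : DistribMulAction GQ (JTors N p) where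
  smul σ x := ⟨σ • (x : JZero N), galois_smul_mem_torsion N p σ x.2⟩
  one_smul x := Subtype.ext (one_smul _ (x : JZero N))
  mul_smul σ τ x := Subtype.ext (mul_smul σ τ (x : JZero N))
  smul_zero σ := Subtype.ext (smul_zero (A := JZero N) σ)
  smul_add σ x y := Subtype.ext (smul_add σ (x : JZero N) (y : JZero N))

theorem hecke_mem_torsion (ℓ : Nat.Primes) {x : JZero N}
    (hx : x ∈ Pic0.torsion (AlgebraicClosure ℚ) (modularFunctionFieldBar N) p) :
    heckeOperatorBar N ℓ x ∈ Pic0.torsion (AlgebraicClosure ℚ) (modularFunctionFieldBar N) p := by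
  rw [Pic0.mem_torsion] at hx ⊢
  rw [← map_zsmul, hx, map_zero]

/-- The Hecke operator `T_ℓ` on the `p`-torsion (zero when `ℓ` is not prime). -/
def heckeTors (ℓ : ℕ) : Module.End ℤ (JTors N p) :=
  if hℓ : ℓ.Prime then
    { toFun := fun x => ⟨heckeOperatorBar N ⟨ℓ, hℓ⟩ (x : JZero N),
        hecke_mem_torsion N p ⟨ℓ, hℓ⟩ x.2⟩
      map_add' := fun _ _ => Subtype.ext (map_add (heckeOperatorBar N ⟨ℓ, hℓ⟩) _ _)
      map_smul' := fun c _ => Subtype.ext (map_zsmul (heckeOperatorBar N ⟨ℓ, hℓ⟩) c _) }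
  else 0

theorem coe_heckeTors_apply {ℓ : ℕ} (hℓ : ℓ.Prime) (x : JTors N p) :
    ((heckeTors N p ℓ x : JTors N p) : JZero N) = heckeOperatorBar N ⟨ℓ, hℓ⟩ (x : JZero N) := by
  rw [heckeTors, dif_pos hℓ]
  rfl

/-- **Layer M assembly** for `JZero N`: RAW Eichler–Shimura input + occurrence of the
eigensystem ⇒ `HasFrobModule`. -/
theorem hasFrobModule_of_raw {p : ℕ} (hp : p.Prime) {F : Type} [Field F] (a : ℕ → F)
    (hunr : ∀ ℓ : ℕ, ℓ.Prime → ¬ ℓ ∣ N * p → ∀ V : VQ, V.LiesOverPrime ℓ →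
      ∀ σ ∈ V.inertiaSubgroupIn ℚ, ∀ x : JZero N, (p : ℤ) • x = 0 → σ • x = x)
    (hfrob : ∀ (ℓ : ℕ) (hℓ : ℓ.Prime), ¬ ℓ ∣ N * p → ∀ V : VQ, V.LiesOverPrime ℓ →
      ∀ σ : GQ, V.IsFrobeniusAt σ ℓ → ∀ x : JZero N, (p : ℤ) • x = 0 →
        σ • σ • x - heckeOperatorBar N ⟨ℓ, hℓ⟩ (σ • x) + (ℓ : ℤ) • x = 0)
    (hocc : ∃ v : F ⊗[ℤ] JTors N p, v ≠ 0 ∧
      ∀ ℓ : ℕ, ℓ.Prime → ¬ ℓ ∣ N * p → (heckeTors N p ℓ).baseChange F v = a ℓ • v) :
    HasFrobModule F (N * p) a := by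
  letI := galoisActionTors N p
  refine hasFrobModule_of_eigenvector (N * p) a (heckeTors N p) ?_ ?_ ?_ ?_ hocc
  · intro ℓ σ x
    by_cases hℓ : ℓ.Prime
    · apply Subtype.ext
      rw [coe_heckeTors_apply N p hℓ]
      show heckeOperatorBar N ⟨ℓ, hℓ⟩ (σ • (x : JZero N)) = σ • ((heckeTors N p ℓ x : JTors N p) : JZero N)
      rw [coe_heckeTors_apply N p hℓ]
      exact galois_smul_heckeOperatorBar N ⟨ℓ, hℓ⟩ σ x
    · rw [heckeTors, dif_neg hℓ]
      simp
  · intro x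
    obtain ⟨L, hL, hfix⟩ := jZero_exists_finite_level_fix_torsion N hp.ne_zero (x : JZero N)
      (Pic0.mem_torsion.mp x.2)
    exact ⟨L, hL, fun σ hσ => Subtype.ext (hfix σ hσ)⟩
  · intro ℓ hℓ hS V hV σ hσ x
    exact Subtype.ext (hunr ℓ hℓ hS V hV σ hσ x (Pic0.mem_torsion.mp x.2))
  · intro ℓ hℓ hS V hV σ hσ x
    apply Subtype.ext
    have h := hfrob ℓ hℓ hS V hV σ hσ x (Pic0.mem_torsion.mp x.2)
    show ((σ • σ • x - heckeTors N p ℓ (σ • x) + (ℓ : ℤ) • x : JTors N p) : JZero N) = 0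
    rw [AddSubgroup.coe_add, AddSubgroup.coe_sub, coe_heckeTors_apply N p hℓ,
      AddSubgroup.coe_zsmul]
    exact h

end Fermat.Agent.S29.H42
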